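/-
Programme MW (S17), brick NC-B (helper32), scheme plumbing part S1-S3:
powers of a pointed curve `X : CurveTo f 0` mapping to a group scheme `(f, G)`, the sum maps
`σ_r : X^r ⟶ A`, their images `W_r`, and the stratification:

* `pw X r`, `sigma G X r`      : `X^r` (`= Curv33.prodObj (replicate r X)`) and `σ_r`;
* `coord X r j`                : the `j`-th coordinate `X^r ⟶ X.C`;
* `ins X r j`                  : insertion of the base point at position `j`, `X^r ⟶ X^(r+1)`;
* `ins_sigma`                  : `ins ≫ σ_(r+1) = σ_r`;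
* `range_ins`                  : `range (ins X r j) = coord_j ⁻¹' {oo}`;
* `W G X r`                    : `range σ_r`; `W_mono`, `isClosed_W`;
* `sigma_mem_W_of_coord_eq`    : if a coordinate of `w ∈ X^(r+1)` is the base point, then
                                 `σ_(r+1) w ∈ W_r`  (S3).
-/
import Mathlib
import Fermat.Agent.AV.ClosedPtsCurv31

set_option autoImplicit false

noncomputable section

universe u

open CategoryTheory CategoryTheory.Limits AlgebraicGeometry NeronModelInfra GoodReductionJacobian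

namespace Fermat.Agent.MW.NorthB32

open Fermat.Agent.AV.Curv33 Fermat.Agent.AV.ClosedPtsCurv31

variable {K : Type u} [Field K] {A : Scheme.{u}} {f : A ⟶ Spec (CommRingCat.of K)}
  {e : SchemeHomOver (𝟙 (Spec (CommRingCat.of K))) f}

/-- The list `[X, …, X]` (`r` times). -/
abbrev pwList (X : CurveTo f e) (r : ℕ) : List (CurveTo f e) := List.replicate r X

/-- The `r`-fold power `X^r` of the curve over `Spec K`. -/
abbrev pw (X : CurveTo f e) (r : ℕ) : Scheme.{u} := prodObj (pwList X r)

/-- The structure morphism of `X^r`. -/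
abbrev pwHom (X : CurveTo f e) (r : ℕ) : pw X r ⟶ Spec (CommRingCat.of K) := prodHom (pwList X r)

theorem pwList_succ (X : CurveTo f e) (r : ℕ) : pwList X (r + 1) = X :: pwList X r := rfl

/-- The first coordinate `X^(r+1) ⟶ X.C`. -/
abbrev pwFst (X : CurveTo f e) (r : ℕ) : pw X (r + 1) ⟶ X.C := prodFst X (pwList X r)

/-- The projection to the last `r` coordinates `X^(r+1) ⟶ X^r`. -/
abbrev pwSnd (X : CurveTo f e) (r : ℕ) : pw X (r + 1) ⟶ pw X r := prodSnd X (pwList X r)

theorem pwFst_c (X : CurveTo f e) (r : ℕ) : pwFst X r ≫ X.c = pwHom X (r + 1) := rfl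

theorem pwSnd_hom (X : CurveTo f e) (r : ℕ) : pwSnd X r ≫ pwHom X r = pwHom X (r + 1) :=
  prodSnd_hom X (pwList X r)

/-- The `j`-th coordinate `X^r ⟶ X.C`. -/
def coord (X : CurveTo f e) : (r : ℕ) → Fin r → (pw X r ⟶ X.C)
  | 0 => fun j => j.elim0
  | r + 1 => fun j => Fin.cases (pwFst X r) (fun j' => pwSnd X r ≫ coord X r j') j

@[simp]
theorem coord_zero (X : CurveTo f e) (r : ℕ) : coord X (r + 1) 0 = pwFst X r := rfl

@[simp]
theorem coord_succ (X : CurveTo f e) (r : ℕ) (j : Fin r) :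
    coord X (r + 1) j.succ = pwSnd X r ≫ coord X r j := rfl

theorem coord_c (X : CurveTo f e) : ∀ (r : ℕ) (j : Fin r), coord X r j ≫ X.c = pwHom X r
  | 0 => fun j => j.elim0
  | r + 1 => fun j => by
    refine Fin.cases ?_ (fun j' => ?_) j
    · rfl
    · rw [coord_succ, Category.assoc, coord_c X r j', pwSnd_hom]

/-- Insertion of the base point in front: `X^r ⟶ X^(r+1)`, `w ↦ (oo, w)`. -/
def insHead (X : CurveTo f e) (r : ℕ) : pw X r ⟶ pw X (r + 1) :=
  pullback.lift (pwHom X r ≫ X.ε.1) (𝟙 _)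
    (by rw [Category.assoc, X.ε.2, Category.comp_id, Category.id_comp])

@[reassoc (attr := simp)]
theorem insHead_fst (X : CurveTo f e) (r : ℕ) :
    insHead X r ≫ pwFst X r = pwHom X r ≫ X.ε.1 := pullback.lift_fst _ _ _

@[reassoc (attr := simp)]
theorem insHead_snd (X : CurveTo f e) (r : ℕ) : insHead X r ≫ pwSnd X r = 𝟙 _ :=
  pullback.lift_snd _ _ _

theorem insHead_hom (X : CurveTo f e) (r : ℕ) : insHead X r ≫ pwHom X (r + 1) = pwHom X r := by
  rw [← pwSnd_hom, insHead_snd_assoc]

/-- `id × g : X × X^r ⟶ X × X^(r')` for a morphism `g : X^r ⟶ X^r'` over `K`. -/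
def idTimes (X : CurveTo f e) {r r' : ℕ} (g : pw X r ⟶ pw X r') (hg : g ≫ pwHom X r' = pwHom X r) :
    pw X (r + 1) ⟶ pw X (r' + 1) :=
  pullback.lift (pwFst X r) (pwSnd X r ≫ g)
    (by rw [Category.assoc, hg, pwSnd_hom, pwFst_c])

@[reassoc (attr := simp)]
theorem idTimes_fst (X : CurveTo f e) {r r' : ℕ} (g : pw X r ⟶ pw X r')
    (hg : g ≫ pwHom X r' = pwHom X r) : idTimes X g hg ≫ pwFst X r' = pwFst X r :=
  pullback.lift_fst _ _ _

@[reassoc (attr := simp)]
theorem idTimes_snd (X : CurveTo f e) {r r' : ℕ} (g : pw X r ⟶ pw X r')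
    (hg : g ≫ pwHom X r' = pwHom X r) : idTimes X g hg ≫ pwSnd X r' = pwSnd X r ≫ g :=
  pullback.lift_snd _ _ _

theorem idTimes_hom (X : CurveTo f e) {r r' : ℕ} (g : pw X r ⟶ pw X r')
    (hg : g ≫ pwHom X r' = pwHom X r) :
    idTimes X g hg ≫ pwHom X (r' + 1) = pwHom X (r + 1) := by
  rw [← pwFst_c, idTimes_fst_assoc, pwFst_c]

/-- `id × g` is the base change of `g` along the projection to the last coordinates. -/
theorem isPullback_idTimes (X : CurveTo f e) {r r' : ℕ} (g : pw X r ⟶ pw X r')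
    (hg : g ≫ pwHom X r' = pwHom X r) :
    IsPullback (idTimes X g hg) (pwSnd X r) (pwSnd X r') g := by
  have hR : IsPullback (pwFst X r') (pwSnd X r') X.c (pwHom X r') :=
    IsPullback.of_hasPullback X.c (pwHom X r')
  have hO : IsPullback (idTimes X g hg ≫ pwFst X r') (pwSnd X r) X.c (g ≫ pwHom X r') := by
    rw [idTimes_fst, hg]
    exact IsPullback.of_hasPullback X.c (pwHom X r)
  exact IsPullback.of_right hO (idTimes_snd X g hg) hR

/-- Insertion of the base point at position `j`: `X^r ⟶ X^(r+1)`, together with the proof that it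
is a morphism over `K`. -/
def insAux (X : CurveTo f e) : (r : ℕ) → Fin (r + 1) →
    {g : pw X r ⟶ pw X (r + 1) // g ≫ pwHom X (r + 1) = pwHom X r}
  | 0 => fun _ => ⟨insHead X 0, insHead_hom X 0⟩
  | r + 1 => fun j => Fin.cases ⟨insHead X (r + 1), insHead_hom X (r + 1)⟩
      (fun j' => ⟨idTimes X (insAux X r j').1 (insAux X r j').2,
        idTimes_hom X (insAux X r j').1 (insAux X r j').2⟩) j

/-- Insertion of the base point at position `j`: `X^r ⟶ X^(r+1)`. -/
def ins (X : CurveTo f e) (r : ℕ) (j : Fin (r + 1)) : pw X r ⟶ pw X (r + 1) := (insAux X r j).1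

theorem ins_hom (X : CurveTo f e) (r : ℕ) (j : Fin (r + 1)) :
    ins X r j ≫ pwHom X (r + 1) = pwHom X r := (insAux X r j).2

theorem ins_zero (X : CurveTo f e) (r : ℕ) : ins X r 0 = insHead X r := by
  cases r <;> rfl

theorem ins_succ (X : CurveTo f e) (r : ℕ) (j : Fin (r + 1)) :
    ins X (r + 1) j.succ = idTimes X (ins X r j) (ins_hom X r j) := rfl

variable (G : RelativeGroupLaw K f)

/-- The sum map `σ_r : X^r ⟶ A`, as a point of `A` over `X^r`. -/
abbrev sigmaPt (X : CurveTo f (G.one (𝟙 (Spec (CommRingCat.of K))))) (r : ℕ) :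
    SchemeHomOver (pwHom X r) f := sumPt G (pwList X r)

/-- The sum map `σ_r : X^r ⟶ A`. -/
abbrev sigma (X : CurveTo f (G.one (𝟙 (Spec (CommRingCat.of K))))) (r : ℕ) : pw X r ⟶ A :=
  sumMap G (pwList X r)

theorem sigmaPt_succ (X : CurveTo f (G.one (𝟙 (Spec (CommRingCat.of K))))) (r : ℕ) :
    sigmaPt G X (r + 1) = G.mul (pwHom X (r + 1))
      (schemeHomOverComp (pwFst X r) (pwFst_c X r) X.φ)
      (schemeHomOverComp (pwSnd X r) (pwSnd_hom X r) (sigmaPt G X r)) := rfl

/-- Inserting the base point in front does not change the sum. -/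
theorem insHead_sigmaPt (X : CurveTo f (G.one (𝟙 (Spec (CommRingCat.of K))))) (r : ℕ) :
    schemeHomOverComp (insHead X r) (insHead_hom X r) (sigmaPt G X (r + 1)) = sigmaPt G X r := by
  rw [sigmaPt_succ, G.mul_natural]
  have h1 : schemeHomOverComp (insHead X r) (insHead_hom X r)
      (schemeHomOverComp (pwFst X r) (pwFst_c X r) X.φ) = G.one (pwHom X r) := by
    rw [← G.one_natural (𝟙 _) (pwHom X r) (pwHom X r) (Category.comp_id _)]
    apply Subtype.ext
    change insHead X r ≫ pwFst X r ≫ X.φ.1 = pwHom X r ≫ (G.one (𝟙 _)).1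
    rw [insHead_fst_assoc, X.φ_ε]
  have h2 : schemeHomOverComp (insHead X r) (insHead_hom X r)
      (schemeHomOverComp (pwSnd X r) (pwSnd_hom X r) (sigmaPt G X r)) = sigmaPt G X r := by
    apply Subtype.ext
    change insHead X r ≫ pwSnd X r ≫ (sigmaPt G X r).1 = (sigmaPt G X r).1
    rw [insHead_snd_assoc]
  rw [h1, h2, G.one_mul]

/-- Inserting the base point at any position does not change the sum. -/
theorem ins_sigmaPt (X : CurveTo f (G.one (𝟙 (Spec (CommRingCat.of K))))) :
    ∀ (r : ℕ) (j : Fin (r + 1)),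
      schemeHomOverComp (ins X r j) (ins_hom X r j) (sigmaPt G X (r + 1)) = sigmaPt G X r
  | 0 => fun j => by
    have hj : j = 0 := Fin.fin_one_eq_zero j
    subst hj
    exact insHead_sigmaPt G X 0
  | r + 1 => fun j => by
    refine Fin.cases ?_ (fun j' => ?_) j
    · exact insHead_sigmaPt G X (r + 1)
    · have ih := ins_sigmaPt X r j'
      rw [sigmaPt_succ G X (r + 1), G.mul_natural, sigmaPt_succ G X r]
      congr 1
      · apply Subtype.ext
        change ins X (r + 1) j'.succ ≫ pwFst X (r + 1) ≫ X.φ.1 = pwFst X r ≫ X.φ.1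
        rw [ins_succ, idTimes_fst_assoc]
      · apply Subtype.ext
        change ins X (r + 1) j'.succ ≫ pwSnd X (r + 1) ≫ (sigmaPt G X (r + 1)).1 =
          pwSnd X r ≫ (sigmaPt G X r).1
        rw [ins_succ, idTimes_snd_assoc]
        congr 1
        exact congrArg Subtype.val ih

/-- **S2/S3, morphism form**: `ins_j ≫ σ_(r+1) = σ_r`. -/
theorem ins_sigma (X : CurveTo f (G.one (𝟙 (Spec (CommRingCat.of K))))) (r : ℕ)
    (j : Fin (r + 1)) : ins X r j ≫ sigma G X (r + 1) = sigma G X r :=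
  congrArg Subtype.val (ins_sigmaPt G X r j)

end Fermat.Agent.MW.NorthB32
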