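/-
Programme MW (S17), brick NC-B (helper32), scheme plumbing part S2-S3 (ranges):

* `basePt X`                   : the base point `oo` of the curve, as a point of the space `X.C`;
* `range_ins`                  : `range (ins X r j) = coord_j ⁻¹' {oo}`;
* `W G X r`                    : `range σ_r`; `W_mono`, `isClosed_W`;
* `sigma_mem_W_of_coord_eq`    : if a coordinate of `w ∈ X^(r+1)` is the base point, then
                                 `σ_(r+1) w ∈ W_r`  (S3);
* `preimage_compl_W_subset`    : `σ_(r+1) ⁻¹' (W_r)ᶜ ⊆ ⋂ j, coord_j ⁻¹' {oo}ᶜ`.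
-/
import Mathlib
import Fermat.Agent.MW.NorthB32.Strata

set_option autoImplicit false

noncomputable section

universe u

open CategoryTheory CategoryTheory.Limits AlgebraicGeometry NeronModelInfra GoodReductionJacobian

namespace Fermat.Agent.MW.NorthB32

open Fermat.Agent.AV.Curv33 Fermat.Agent.AV.ClosedPtsCurv31

variable {K : Type u} [Field K] {A : Scheme.{u}} {f : A ⟶ Spec (CommRingCat.of K)}
  {e : SchemeHomOver (𝟙 (Spec (CommRingCat.of K))) f}

/-- The base point `oo` of the curve, as a point of the underlying space. -/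
def basePt (X : CurveTo f e) : X.C := X.ε.1 (IsLocalRing.closedPoint K)

theorem range_ε (X : CurveTo f e) : Set.range X.ε.1 = {basePt X} := by
  ext t
  simp only [Set.mem_range, Set.mem_singleton_iff]
  constructor
  · rintro ⟨a, rfl⟩
    exact congrArg _ (Subsingleton.elim _ _)
  · rintro rfl
    exact ⟨_, rfl⟩

/-- Inserting the base point in front is the base change of the base point along the first
coordinate. -/
theorem isPullback_insHead (X : CurveTo f e) (r : ℕ) :
    IsPullback (insHead X r) (pwHom X r) (pwFst X r) X.ε.1 := by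
  have hR : IsPullback (pwSnd X r) (pwFst X r) (pwHom X r) X.c :=
    (IsPullback.of_hasPullback X.c (pwHom X r)).flip
  have hO : IsPullback (insHead X r ≫ pwSnd X r) (pwHom X r) (pwHom X r) (X.ε.1 ≫ X.c) := by
    rw [insHead_snd, X.ε.2]
    exact IsPullback.of_horiz_isIso ⟨by simp⟩
  exact IsPullback.of_right hO (insHead_fst X r) hR

theorem range_insHead (X : CurveTo f e) (r : ℕ) :
    Set.range (insHead X r) = pwFst X r ⁻¹' {basePt X} := by
  have h := Scheme.image_preimage_eq_of_isPullback (isPullback_insHead X r).flip Set.univ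
  rw [Set.preimage_univ, Set.image_univ, Set.image_univ] at h
  rw [show Set.range (insHead X r) = Set.range (insHead X r).base from rfl, h]
  congr 1
  exact range_ε X

theorem range_idTimes (X : CurveTo f e) {r r' : ℕ} (g : pw X r ⟶ pw X r')
    (hg : g ≫ pwHom X r' = pwHom X r) :
    Set.range (idTimes X g hg) = pwSnd X r' ⁻¹' Set.range g := by
  have h := Scheme.image_preimage_eq_of_isPullback (isPullback_idTimes X g hg).flip Set.univ
  rw [Set.preimage_univ, Set.image_univ, Set.image_univ] at h
  exact h

/-- **The range of the insertion at position `j` is the locus where the `j`-th coordinate is the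
base point.** -/
theorem range_ins (X : CurveTo f e) :
    ∀ (r : ℕ) (j : Fin (r + 1)), Set.range (ins X r j) = coord X (r + 1) j ⁻¹' {basePt X}
  | 0 => fun j => by
    have hj : j = 0 := Fin.fin_one_eq_zero j
    subst hj
    rw [ins_zero, range_insHead, coord_zero]
  | r + 1 => fun j => by
    refine Fin.cases ?_ (fun j' => ?_) j
    · rw [ins_zero, range_insHead, coord_zero]
    · rw [ins_succ, range_idTimes, range_ins X r j', coord_succ]
      rfl

variable (G : RelativeGroupLaw K f)

/-- `W_r`, the image of the sum map `σ_r : X^r ⟶ A`. -/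
def W (X : CurveTo f (G.one (𝟙 (Spec (CommRingCat.of K))))) (r : ℕ) : Set A :=
  Set.range (sigma G X r)

theorem W_mono_succ (X : CurveTo f (G.one (𝟙 (Spec (CommRingCat.of K))))) (r : ℕ) :
    W G X r ⊆ W G X (r + 1) := by
  rintro _ ⟨w, rfl⟩
  refine ⟨ins X r 0 w, ?_⟩
  rw [← Scheme.Hom.comp_apply, ins_sigma]

theorem W_mono (X : CurveTo f (G.one (𝟙 (Spec (CommRingCat.of K))))) {r r' : ℕ}
    (h : r ≤ r') : W G X r ⊆ W G X r' := by
  induction h with
  | refl => exact subset_rfl
  | step _ ih => exact ih.trans (W_mono_succ G X _)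

theorem isClosed_W [IsSeparated f] (X : CurveTo f (G.one (𝟙 (Spec (CommRingCat.of K)))))
    (r : ℕ) : IsClosed (W G X r) := by
  have : IsProper (sumMap G (pwList X r)) := isProper_sumMap G (pwList X r)
  exact (sumMap G (pwList X r)).isClosedMap.isClosed_range

/-- **S3**: if some coordinate of `w ∈ X^(r+1)` is the base point then `σ_(r+1) w ∈ W_r`. -/
theorem sigma_mem_W_of_coord_eq (X : CurveTo f (G.one (𝟙 (Spec (CommRingCat.of K))))) (r : ℕ)
    (j : Fin (r + 1)) (w : pw X (r + 1)) (hw : coord X (r + 1) j w = basePt X) :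
    sigma G X (r + 1) w ∈ W G X r := by
  have hmem : w ∈ Set.range (ins X r j) := by
    rw [range_ins]; exact hw
  obtain ⟨w', rfl⟩ := hmem
  refine ⟨w', ?_⟩
  rw [← Scheme.Hom.comp_apply, ins_sigma]

/-- **S3, set form**: the preimage under `σ_(r+1)` of the complement of `W_r` lies in the locus
where no coordinate is the base point. -/
theorem preimage_compl_W_subset (X : CurveTo f (G.one (𝟙 (Spec (CommRingCat.of K))))) (r : ℕ) :
    sigma G X (r + 1) ⁻¹' (W G X r)ᶜ ⊆ ⋂ j : Fin (r + 1), coord X (r + 1) j ⁻¹' {basePt X}ᶜ := by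
  intro w hw
  simp only [Set.mem_iInter, Set.mem_preimage, Set.mem_compl_iff, Set.mem_singleton_iff]
  intro j hj
  exact hw (sigma_mem_W_of_coord_eq G X r j w hj)

end Fermat.Agent.MW.NorthB32
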