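/-
Programme MW (S17), brick NC-B (helper32), scheme plumbing part S4-S5:

`t` a function on `X.C ∖ {oo}`.  For every `r < g`, every `Ω`-point `w` of `X^(r+1)` with
`σ_(r+1)(w) ∉ W_r` and every coordinate `j`:
    `h(t(w_j)) ≤ D * hgt f s (σ_(r+1) w) + C`,
with constants independent of `r, j, w`, provided the target `V` is covered by good pieces
(`NorthB10.HtBounded`).
-/
import Mathlib
import Fermat.Agent.MW.NorthB32.Range
import Fermat.Agent.MW.NorthB10.Cover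

set_option autoImplicit false

noncomputable section

universe u

open CategoryTheory CategoryTheory.Limits AlgebraicGeometry NeronModelInfra GoodReductionJacobian

namespace Fermat.Agent.MW.NorthB32

open Fermat.Agent.AV.Curv33 Fermat.Agent.AV.ClosedPtsCurv31 Fermat.Agent.MW.NorthB10
  Fermat.Agent.MW.HM73 Fermat.Agent.MW.AbsHeightOne10

variable {Ω : Type u} [Field Ω] {V : Scheme.{u}} {f : V ⟶ Spec (CommRingCat.of Ω)}
  {e : SchemeHomOver (𝟙 (Spec (CommRingCat.of Ω))) f}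

theorem isClosed_basePt (X : CurveTo f e) : IsClosed ({basePt X} : Set X.C) :=
  Fermat.Agent.AV.ClosedPts31.isClosed_Kpoint X.c X.ε.1 X.ε.2

/-- The open complement `X.C ∖ {oo}` of the base point. -/
def Copen (X : CurveTo f e) : X.C.Opens := ⟨{basePt X}ᶜ, (isClosed_basePt X).isOpen_compl⟩

theorem mem_Copen (X : CurveTo f e) (x : X.C) : x ∈ Copen X ↔ x ≠ basePt X := Iff.rfl

variable (G : RelativeGroupLaw Ω f)

/-- The open complement of `W_r` in the target. -/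
def Wc [IsSeparated f] (X : CurveTo f (G.one (𝟙 (Spec (CommRingCat.of Ω))))) (r : ℕ) : V.Opens :=
  ⟨(W G X r)ᶜ, (isClosed_W G X r).isOpen_compl⟩

theorem mem_Wc [IsSeparated f] (X : CurveTo f (G.one (𝟙 (Spec (CommRingCat.of Ω))))) (r : ℕ)
    (x : V) : x ∈ Wc G X r ↔ x ∉ W G X r := Iff.rfl

/-- **S3, opens form.** -/
theorem preimage_Wc_le [IsSeparated f] (X : CurveTo f (G.one (𝟙 (Spec (CommRingCat.of Ω)))))
    (r : ℕ) (j : Fin (r + 1)) :
    sigma G X (r + 1) ⁻¹ᵁ Wc G X r ≤ coord X (r + 1) j ⁻¹ᵁ Copen X := by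
  intro w hw
  have h := preimage_compl_W_subset G X r hw
  simp only [Set.mem_iInter] at h
  exact h j

/-- **S4**: the function `t ∘ pr_j` on the open `pr_j⁻¹ (X.C ∖ oo)` of `X^r`. -/
def zfun (X : CurveTo f e) (r : ℕ) (j : Fin r) (t : Γ(X.C, Copen X)) :
    Γ(pw X r, coord X r j ⁻¹ᵁ Copen X) :=
  ((coord X r j).app (Copen X)).hom t

theorem germVal_zfun (X : CurveTo f e) (r : ℕ) (j : Fin r) (t : Γ(X.C, Copen X))
    (w : Spec (CommRingCat.of Ω) ⟶ pw X r)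
    (hw : (w ≫ coord X r j) (IsLocalRing.closedPoint Ω) ∈ Copen X) :
    germVal w (coord X r j ⁻¹ᵁ Copen X) hw (zfun X r j t) =
      germVal (w ≫ coord X r j) (Copen X) hw t :=
  (germVal_comp w (coord X r j) (Copen X) hw t).symm

section Bound

variable [IsAlgClosed Ω] [CharZero Ω] [Algebra.IsAlgebraic ℚ Ω] [IsIntegral V]
  [UniversallyClosed f] [LocallyOfFiniteType f] [IsSeparated f]
  {ι : Type*} [Finite ι] (s : ι → V.functionField)

omit [IsAlgClosed Ω] [UniversallyClosed f] [LocallyOfFiniteType f] [IsSeparated f] in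
/-- If `V` is covered by good affine pieces, every point of an open `Y` has a good affine
neighbourhood inside `Y`. -/
theorem exists_piece_le (hpieces : ∀ x : Pt f, ∃ T : V.Opens,
      x.1 (IsLocalRing.closedPoint Ω) ∈ T ∧ IsAffineOpen T ∧ HtBounded f s T)
    (Y : V.Opens) (x : Pt f) (hx : x.1 (IsLocalRing.closedPoint Ω) ∈ Y) :
    ∃ T : V.Opens, x.1 (IsLocalRing.closedPoint Ω) ∈ T ∧ T ≤ Y ∧ IsAffineOpen T ∧
      HtBounded f s T := by
  obtain ⟨T, hxT, hT, hb⟩ := hpieces x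
  obtain ⟨φ, hφY, hxφ⟩ := hT.exists_basicOpen_le (V := Y) ⟨_, hx⟩ hxT
  exact ⟨V.basicOpen φ, hxφ, hφY, hT.basicOpen φ, hb.basicOpen hT φ⟩

/-- **S5 for one `(r, j)`.** -/
theorem exists_const_coord (X : CurveTo f (G.one (𝟙 (Spec (CommRingCat.of Ω)))))
    (t : Γ(X.C, Copen X))
    (hpieces : ∀ x : Pt f, ∃ T : V.Opens,
      x.1 (IsLocalRing.closedPoint Ω) ∈ T ∧ IsAffineOpen T ∧ HtBounded f s T)
    (r : ℕ) (j : Fin (r + 1)) :
    ∃ D C : ℝ, 0 ≤ D ∧ ∀ (w : Spec (CommRingCat.of Ω) ⟶ pw X (r + 1))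
      (hw : (w ≫ sigma G X (r + 1)) ≫ f = 𝟙 _)
      (_ : (w ≫ sigma G X (r + 1)) (IsLocalRing.closedPoint Ω) ∉ W G X r)
      (hj : (w ≫ coord X (r + 1) j) (IsLocalRing.closedPoint Ω) ∈ Copen X),
      absLogHeightOne (germVal (w ≫ coord X (r + 1) j) (Copen X) hj t) ≤
        D * hgt f s ⟨w ≫ sigma G X (r + 1), hw⟩ + C := by
  have : IsProper (sigma G X (r + 1)) := isProper_sumMap G (pwList X (r + 1))
  obtain ⟨D, C, h⟩ := exists_const_absLogHeightOne_le_hgt_of_cover (f := f) (s := s)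
    (sigma G X (r + 1)) (Wc G X r) (coord X (r + 1) j ⁻¹ᵁ Copen X) (preimage_Wc_le G X r j)
    (zfun X (r + 1) j t) (fun x hx => exists_piece_le s hpieces _ x hx)
  refine ⟨max D 0, C, le_max_right _ _, fun w hw hwW hj => ?_⟩
  have h1 : absLogHeightOne (germVal (w ≫ coord X (r + 1) j) (Copen X) hj t) ≤
      D * hgt f s ⟨w ≫ sigma G X (r + 1), hw⟩ + C := by
    rw [← germVal_zfun X (r + 1) j t w hj]
    exact h w hw hwW
  have h2 : D * hgt f s ⟨w ≫ sigma G X (r + 1), hw⟩ ≤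
      max D 0 * hgt f s ⟨w ≫ sigma G X (r + 1), hw⟩ :=
    mul_le_mul_of_nonneg_right (le_max_left _ _) (hgt_nonneg f s _)
  linarith

/-- **S5, all `r < g` and all coordinates at once** (the scheme-level NORTH-C(b) bound). -/
theorem exists_const_all (X : CurveTo f (G.one (𝟙 (Spec (CommRingCat.of Ω)))))
    (t : Γ(X.C, Copen X))
    (hpieces : ∀ x : Pt f, ∃ T : V.Opens,
      x.1 (IsLocalRing.closedPoint Ω) ∈ T ∧ IsAffineOpen T ∧ HtBounded f s T)
    (g : ℕ) :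
    ∃ D C : ℝ, 0 ≤ D ∧ ∀ (r : ℕ) (_ : r < g) (j : Fin (r + 1))
      (w : Spec (CommRingCat.of Ω) ⟶ pw X (r + 1))
      (hw : (w ≫ sigma G X (r + 1)) ≫ f = 𝟙 _)
      (_ : (w ≫ sigma G X (r + 1)) (IsLocalRing.closedPoint Ω) ∉ W G X r)
      (hj : (w ≫ coord X (r + 1) j) (IsLocalRing.closedPoint Ω) ∈ Copen X),
      absLogHeightOne (germVal (w ≫ coord X (r + 1) j) (Copen X) hj t) ≤
        D * hgt f s ⟨w ≫ sigma G X (r + 1), hw⟩ + C := by
  classical
  choose D C hD hDC using fun (p : Σ r : Fin g, Fin (r.1 + 1)) =>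
    exists_const_coord G s X t hpieces p.1.1 p.2
  refine ⟨∑ p, D p, ∑ p, |C p|, Finset.sum_nonneg fun p _ => hD p, ?_⟩
  intro r hr j w hw hwW hj
  have h1 := hDC ⟨⟨r, hr⟩, j⟩ w hw hwW hj
  have h2 : D ⟨⟨r, hr⟩, j⟩ ≤ ∑ p, D p :=
    Finset.single_le_sum (f := D) (fun p _ => hD p) (Finset.mem_univ _)
  have h3 : C ⟨⟨r, hr⟩, j⟩ ≤ ∑ p, |C p| :=
    le_trans (le_abs_self _) (Finset.single_le_sum (f := fun p => |C p|)
      (fun p _ => abs_nonneg _) (Finset.mem_univ _))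
  have h4 : 0 ≤ hgt f s ⟨w ≫ sigma G X (r + 1), hw⟩ := hgt_nonneg f s _
  have h5 := mul_le_mul_of_nonneg_right h2 h4
  linarith

end Bound

end Fermat.Agent.MW.NorthB32
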