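/-
Programme MW (S17), brick NC-B (helper32): the stratum bound `NorthAsm2.StratumBound` for the
stratum `r + 1`, for a core package `G : GeomCore N`, in the vocabulary of `NorthB32`
(`pw X r`, `coord X r j`, `sigma L X r`, `W L X r`, `Copen X`), from helper10's abstract wiring
`NorthB10.exists_stratumBound_of_geomCore`.

The remaining hypotheses are the two DICTIONARIES (bridge side):
* `hdict`  : a multiset `l` of `r + 1` places `≠ oo` is the set of coordinates of a `Qbar`-point `w`
             of `X^(r+1)` with `σ_(r+1) w = β [Σ P − (r+1) oo]` and `tf (w_j) = t (P_j)`;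
* `hdict'` : every `Qbar`-point of `X^r` is mapped by `σ_r` to `β` of a class of `≤ r` places.
-/
import Mathlib
import Fermat.Agent.MW.NorthB32.Apply
import Fermat.Agent.MW.NorthB10.Wiring

set_option autoImplicit false

noncomputable section

universe u

open CategoryTheory CategoryTheory.Limits AlgebraicGeometry NeronModelInfra GoodReductionJacobian
  ModularCurve AlgebraicCurve

namespace Fermat.Agent.MW.NorthB32

open Fermat.Agent.AV.Curv33 Fermat.Agent.AV.ClosedPtsCurv31 Fermat.Agent.MW.NorthB10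
  Fermat.Agent.MW.HM73 Fermat.Agent.MW.AbsHeightOne10 Fermat.Agent.MW

section Common

variable {Ω : Type u} [Field Ω] {V : Scheme.{u}} {f : V ⟶ Spec (CommRingCat.of Ω)}
  {e : SchemeHomOver (𝟙 (Spec (CommRingCat.of Ω))) f}

/-- The open `(X.C ∖ oo)^r` of `X^r`. -/
def X0 (X : CurveTo f e) (r : ℕ) : (pw X r).Opens := ⨅ j : Fin r, coord X r j ⁻¹ᵁ Copen X

theorem X0_le (X : CurveTo f e) (r : ℕ) (j : Fin r) : X0 X r ≤ coord X r j ⁻¹ᵁ Copen X :=
  iInf_le _ j

/-- The function `t ∘ pr_j` on `(X.C ∖ oo)^r`. -/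
def zAll (X : CurveTo f e) (r : ℕ) (j : Fin r) (t : Γ(X.C, Copen X)) : Γ(pw X r, X0 X r) :=
  ((pw X r).presheaf.map (homOfLE (X0_le X r j)).op).hom (zfun X r j t)

theorem germVal_zAll (X : CurveTo f e) (r : ℕ) (j : Fin r) (t : Γ(X.C, Copen X))
    (w : Spec (CommRingCat.of Ω) ⟶ pw X r)
    (hw : w (IsLocalRing.closedPoint Ω) ∈ X0 X r) :
    germVal w (X0 X r) hw (zAll X r j t) =
      germVal (w ≫ coord X r j) (Copen X) (X0_le X r j hw) t := by
  rw [zAll, germVal_res w (X0_le X r j) hw]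
  exact germVal_zfun X r j t w _

variable (G : RelativeGroupLaw Ω f)

theorem preimage_Wc_le_X0 [IsSeparated f] (X : CurveTo f (G.one (𝟙 (Spec (CommRingCat.of Ω)))))
    (r : ℕ) : sigma G X (r + 1) ⁻¹ᵁ Wc G X r ≤ X0 X (r + 1) :=
  le_iInf (preimage_Wc_le G X r)

end Common

section Core

open Fermat.Agent.MW.NorthAsm2 Fermat.Agent.X0.FF Fermat.Agent.MW.NorthA85

variable {N : ℕ} [NeZero N] (G : GeomCore N)

/-- **NC-B for the stratum `r + 1`** (concrete `σ_r`, abstract dictionaries). -/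
theorem exists_stratumBound_succ (hβ : Function.Injective G.β)
    (U : G.V.Opens) (hU : IsAffineOpen U) [Nonempty U] (hb : HtBounded G.f G.s U)
    {j : modularFunctionFieldBar N} (hx : IsGen QBar j)
    (oo : Place QBar (modularFunctionFieldBar N))
    (t : Place QBar (modularFunctionFieldBar N) → QBar)
    (L : RelativeGroupLaw QBar G.f) [IsSeparated G.f]
    (X : CurveTo G.f (L.one (𝟙 (Spec (CommRingCat.of QBar))))) (tf : Γ(X.C, Copen X)) (r : ℕ)
    (hdict : ∀ l : Multiset (Place QBar (modularFunctionFieldBar N)), Multiset.card l = r + 1 →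
      (∀ P ∈ l, P ≠ oo) →
      ∃ (w : Spec (CommRingCat.of QBar) ⟶ pw X (r + 1))
        (hw : (w ≫ sigma L X (r + 1)) ≫ G.f = 𝟙 _),
        (⟨w ≫ sigma L X (r + 1), hw⟩ : Pt G.f) = G.β (pointsClassGen oo hx l) ∧
        ∀ P ∈ l, ∃ i : Fin (r + 1),
          ∀ hi : (w ≫ coord X (r + 1) i) (IsLocalRing.closedPoint QBar) ∈ Copen X,
            germVal (w ≫ coord X (r + 1) i) (Copen X) hi tf = t P)
    (hdict' : ∀ (w' : Spec (CommRingCat.of QBar) ⟶ pw X r)
      (hw' : (w' ≫ sigma L X r) ≫ G.f = 𝟙 _),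
      ∃ l' : Multiset (Place QBar (modularFunctionFieldBar N)), Multiset.card l' < r + 1 ∧
        (⟨w' ≫ sigma L X r, hw'⟩ : Pt G.f) = G.β (pointsClassGen oo hx l')) :
    ∃ C C' : ℝ, StratumBound hx oo t G.height (r + 1) C C' := by
  have : IsProper (sigma L X (r + 1)) := isProper_sumMap L (pwList X (r + 1))
  have : LocallyOfFiniteType (pwHom X r) := locallyOfFiniteType_prodHom (pwList X r)
  refine exists_stratumBound_of_geomCore G hβ U hU hb hx oo t (r + 1)
    (sigma L X (r + 1)) (sigma L X r) (pwHom X r) (sumMap_f L (pwList X r))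
    (Wc L X r) (fun v hv => not_not.mp hv) (X0 X (r + 1)) (preimage_Wc_le_X0 L X r)
    (fun i : Fin (r + 1) => zAll X (r + 1) i tf) ?_ hdict'
  intro l hl hoo
  obtain ⟨w, hw, hβw, hvals⟩ := hdict l hl hoo
  refine ⟨w, hw, hβw, fun hwX P hP => ?_⟩
  obtain ⟨i, hi⟩ := hvals P hP
  exact ⟨i, by rw [germVal_zAll]; exact hi _⟩

omit [NeZero N] in
/-- The stratum `0` is empty. -/
theorem stratumBound_zero {j : modularFunctionFieldBar N} (hx : IsGen QBar j)
    (oo : Place QBar (modularFunctionFieldBar N))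
    (t : Place QBar (modularFunctionFieldBar N) → QBar) (h : JZero N → ℝ) :
    StratumBound hx oo t h 0 0 0 := by
  intro l hl _ _ P hP
  rw [Multiset.card_eq_zero] at hl
  subst hl
  exact absurd hP (Multiset.notMem_zero P)

end Core

end Fermat.Agent.MW.NorthB32
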