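/-
Programme MW (S17), brick NC-B (helper32): the NORTH-C(b) bound in **dictionary form**.

Abstract index set `Γ` (e.g. `JRat N`), finite sets of "places" `pts x ⊆ P`, values `tv : P → Ω`,
bridge `β : Γ → Pt f`.  The DICTIONARY hypothesis says: every `p ∈ pts x` is a coordinate of an
`Ω`-point `w` of some power `X^(r+1)` (`r < g`) with `σ_(r+1)(w) = β x`, `σ_(r+1)(w) ∉ W_r`, and
`tv p = t(w_j)`.  Conclusion: `h(tv p) ≤ C * hgt (β x) + C'`.
-/
import Mathlib
import Fermat.Agent.MW.NorthB32.Apply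

set_option autoImplicit false

noncomputable section

universe u

open CategoryTheory CategoryTheory.Limits AlgebraicGeometry NeronModelInfra GoodReductionJacobian

namespace Fermat.Agent.MW.NorthB32

open Fermat.Agent.AV.Curv33 Fermat.Agent.AV.ClosedPtsCurv31 Fermat.Agent.MW.NorthB10
  Fermat.Agent.MW.HM73 Fermat.Agent.MW.AbsHeightOne10

variable {Ω : Type u} [Field Ω] {V : Scheme.{u}} {f : V ⟶ Spec (CommRingCat.of Ω)}
  (G : RelativeGroupLaw Ω f)
  [IsAlgClosed Ω] [CharZero Ω] [Algebra.IsAlgebraic ℚ Ω] [IsIntegral V]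
  [UniversallyClosed f] [LocallyOfFiniteType f] [IsSeparated f]
  {ι : Type*} [Finite ι] (s : ι → V.functionField)

/-- The dictionary between "places in the reduced divisor of `x`" and coordinates of points of the
powers of the curve. -/
def Dictionary (X : CurveTo f (G.one (𝟙 (Spec (CommRingCat.of Ω))))) (t : Γ(X.C, Copen X))
    (g : ℕ) {Γ' P : Type*} (β : Γ' → Pt f) (pts : Γ' → Set P) (tv : P → Ω) : Prop :=
  ∀ (x : Γ') (p : P), p ∈ pts x → ∃ (r : ℕ) (_ : r < g) (j : Fin (r + 1))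
    (w : Spec (CommRingCat.of Ω) ⟶ pw X (r + 1)) (hw : (w ≫ sigma G X (r + 1)) ≫ f = 𝟙 _)
    (hj : (w ≫ coord X (r + 1) j) (IsLocalRing.closedPoint Ω) ∈ Copen X),
    (⟨w ≫ sigma G X (r + 1), hw⟩ : Pt f) = β x ∧
    (w ≫ sigma G X (r + 1)) (IsLocalRing.closedPoint Ω) ∉ W G X r ∧
    germVal (w ≫ coord X (r + 1) j) (Copen X) hj t = tv p

/-- **NORTH-C(b), dictionary form.** -/
theorem exists_const_of_dictionary (X : CurveTo f (G.one (𝟙 (Spec (CommRingCat.of Ω)))))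
    (t : Γ(X.C, Copen X))
    (hpieces : ∀ x : Pt f, ∃ T : V.Opens,
      x.1 (IsLocalRing.closedPoint Ω) ∈ T ∧ IsAffineOpen T ∧ HtBounded f s T)
    (g : ℕ) {Γ' P : Type*} (β : Γ' → Pt f) (pts : Γ' → Set P) (tv : P → Ω)
    (hdict : Dictionary G X t g β pts tv) :
    ∃ C C' : ℝ, 0 ≤ C ∧ ∀ (x : Γ') (p : P), p ∈ pts x →
      absLogHeightOne (tv p) ≤ C * hgt f s (β x) + C' := by
  obtain ⟨D, C, hD, h⟩ := exists_const_all G s X t hpieces g
  refine ⟨D, C, hD, fun x p hp => ?_⟩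
  obtain ⟨r, hr, j, w, hw, hj, hβ, hW, hv⟩ := hdict x p hp
  rw [← hv, ← hβ]
  exact h r hr j w hw hW hj

end Fermat.Agent.MW.NorthB32
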