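/-
Programme MW (S17), brick NC-B (helper32), dictionary item D1: `K`-points of the power `X^r`
are `r`-tuples of `K`-points of the curve.

* `ofTuple X r P`, `ofTuple_coord`   : the `K`-point with prescribed coordinates;
* `toTuple X r w`                    : the coordinates of a `K`-point;
* `tupleEquiv X r`                   : the bijection;
* `kpt_ext`                          : a `K`-point of `X^r` is determined by its coordinates;
* `sigmaPt_ofTuple_succ`             : `σ_(r+1)(P_0, …, P_r) = φ(P_0) + σ_r(P_1, …, P_r)`.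
-/
import Mathlib
import Fermat.Agent.MW.NorthB32.Strata

set_option autoImplicit false

noncomputable section

universe u

open CategoryTheory CategoryTheory.Limits AlgebraicGeometry NeronModelInfra GoodReductionJacobian

namespace Fermat.Agent.MW.NorthB32

open Fermat.Agent.AV.Curv33 Fermat.Agent.AV.ClosedPtsCurv31

variable {K : Type u} [Field K] {A : Scheme.{u}} {f : A ⟶ Spec (CommRingCat.of K)}
  {e : SchemeHomOver (𝟙 (Spec (CommRingCat.of K))) f}

/-- `K`-points of a `K`-scheme. -/
abbrev KPt {T : Scheme.{u}} (t : T ⟶ Spec (CommRingCat.of K)) : Type u :=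
  SchemeHomOver (𝟙 (Spec (CommRingCat.of K))) t

/-- The `K`-point of `X^r` with prescribed coordinates. -/
def ofTuple (X : CurveTo f e) : (r : ℕ) → (Fin r → KPt X.c) → KPt (pwHom X r)
  | 0 => fun _ => ⟨𝟙 _, Category.id_comp _⟩
  | r + 1 => fun P =>
    ⟨pullback.lift (P 0).1 (ofTuple X r (fun i => P i.succ)).1
        (by rw [(P 0).2, (ofTuple X r (fun i => P i.succ)).2]),
      by
        change pullback.lift _ _ _ ≫ (pullback.fst X.c (pwHom X r) ≫ X.c) = _
        rw [pullback.lift_fst_assoc, (P 0).2]⟩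

theorem ofTuple_fst (X : CurveTo f e) (r : ℕ) (P : Fin (r + 1) → KPt X.c) :
    (ofTuple X (r + 1) P).1 ≫ pwFst X r = (P 0).1 :=
  pullback.lift_fst _ _ _

theorem ofTuple_snd (X : CurveTo f e) (r : ℕ) (P : Fin (r + 1) → KPt X.c) :
    (ofTuple X (r + 1) P).1 ≫ pwSnd X r = (ofTuple X r (fun i => P i.succ)).1 :=
  pullback.lift_snd _ _ _

/-- The coordinates of `ofTuple`. -/
theorem ofTuple_coord (X : CurveTo f e) :
    ∀ (r : ℕ) (P : Fin r → KPt X.c) (j : Fin r), (ofTuple X r P).1 ≫ coord X r j = (P j).1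
  | 0 => fun _ j => j.elim0
  | r + 1 => fun P j => by
    refine Fin.cases ?_ (fun j' => ?_) j
    · rw [coord_zero]; exact ofTuple_fst X r P
    · rw [coord_succ, ← Category.assoc, ofTuple_snd, ofTuple_coord X r _ j']

/-- The coordinates of a `K`-point of `X^r`. -/
def toTuple (X : CurveTo f e) (r : ℕ) (w : KPt (pwHom X r)) : Fin r → KPt X.c :=
  fun j => ⟨w.1 ≫ coord X r j, by rw [Category.assoc, coord_c, w.2]⟩

@[simp]
theorem toTuple_coe (X : CurveTo f e) (r : ℕ) (w : KPt (pwHom X r)) (j : Fin r) :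
    (toTuple X r w j).1 = w.1 ≫ coord X r j := rfl

theorem toTuple_ofTuple (X : CurveTo f e) (r : ℕ) (P : Fin r → KPt X.c) :
    toTuple X r (ofTuple X r P) = P :=
  funext fun j => Subtype.ext (ofTuple_coord X r P j)

/-- A `K`-point of `X^r` is determined by its coordinates. -/
theorem kpt_ext (X : CurveTo f e) :
    ∀ (r : ℕ) (w w' : KPt (pwHom X r)),
      (∀ j : Fin r, w.1 ≫ coord X r j = w'.1 ≫ coord X r j) → w = w'
  | 0 => fun w w' _ => by
    apply Subtype.ext
    have h1 : w.1 = 𝟙 _ := by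
      have := w.2
      change w.1 ≫ 𝟙 _ = 𝟙 _ at this
      rwa [Category.comp_id] at this
    have h2 : w'.1 = 𝟙 _ := by
      have := w'.2
      change w'.1 ≫ 𝟙 _ = 𝟙 _ at this
      rwa [Category.comp_id] at this
    rw [h1, h2]
  | r + 1 => fun w w' h => by
    apply Subtype.ext
    have hsnd : (⟨w.1 ≫ pwSnd X r, by rw [Category.assoc, pwSnd_hom, w.2]⟩ : KPt (pwHom X r)) =
        ⟨w'.1 ≫ pwSnd X r, by rw [Category.assoc, pwSnd_hom, w'.2]⟩ := by
      apply kpt_ext X r
      intro j
      have := h j.succ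
      rw [coord_succ] at this
      simpa only [Category.assoc] using this
    apply pullback.hom_ext
    · have := h 0
      rwa [coord_zero] at this
    · exact congrArg Subtype.val hsnd

theorem ofTuple_toTuple (X : CurveTo f e) (r : ℕ) (w : KPt (pwHom X r)) :
    ofTuple X r (toTuple X r w) = w :=
  kpt_ext X r _ _ fun j => by rw [ofTuple_coord]; rfl

/-- **`K`-points of `X^r` are `r`-tuples of `K`-points of the curve.** -/
def tupleEquiv (X : CurveTo f e) (r : ℕ) : KPt (pwHom X r) ≃ (Fin r → KPt X.c) where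
  toFun := toTuple X r
  invFun := ofTuple X r
  left_inv := ofTuple_toTuple X r
  right_inv := toTuple_ofTuple X r

variable (G : RelativeGroupLaw K f)

/-- `σ_(r+1)(P_0, …, P_r) = φ(P_0) + σ_r(P_1, …, P_r)` on `K`-points. -/
theorem sigmaPt_ofTuple_succ (X : CurveTo f (G.one (𝟙 (Spec (CommRingCat.of K))))) (r : ℕ)
    (P : Fin (r + 1) → KPt X.c) :
    schemeHomOverComp (ofTuple X (r + 1) P).1 (ofTuple X (r + 1) P).2 (sigmaPt G X (r + 1)) =
      G.mul (𝟙 (Spec (CommRingCat.of K)))
        (schemeHomOverComp (P 0).1 (P 0).2 X.φ)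
        (schemeHomOverComp (ofTuple X r (fun i => P i.succ)).1
          (ofTuple X r (fun i => P i.succ)).2 (sigmaPt G X r)) := by
  rw [sigmaPt_succ, G.mul_natural]
  congr 1
  · apply Subtype.ext
    change (ofTuple X (r + 1) P).1 ≫ pwFst X r ≫ X.φ.1 = (P 0).1 ≫ X.φ.1
    rw [← Category.assoc, ofTuple_fst]
  · apply Subtype.ext
    change (ofTuple X (r + 1) P).1 ≫ pwSnd X r ≫ (sigmaPt G X r).1 =
      (ofTuple X r (fun i => P i.succ)).1 ≫ (sigmaPt G X r).1
    rw [← Category.assoc, ofTuple_snd]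

/-- `σ_0` is the origin. -/
theorem sigmaPt_zero (X : CurveTo f (G.one (𝟙 (Spec (CommRingCat.of K))))) :
    sigmaPt G X 0 = G.one (𝟙 (Spec (CommRingCat.of K))) := rfl

end Fermat.Agent.MW.NorthB32
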